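import Fermat.Agent.CMWeber.Main
import Mathlib.AlgebraicGeometry.EllipticCurve.IsomOfJ

/-!
# Passing to the curve over `ℚ(j)`

A curve over `F` with multiplication by a maximal order is isomorphic over `ℚ̄` to a short curve
over `ℚ(j)` with the same multiplication, by an isomorphism after which the power `k` of the
abscissa of every point over `F` still lies in `F`.
-/

set_option autoImplicit false
set_option linter.style.haveILetI false
set_option linter.unusedSectionVars false

noncomputable section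

open WeierstrassCurve NumberField Module FA.IsogenyNF FA.CMFields
open FA.ClassNumberOne (xP)
open scoped WeierstrassCurve.Affine Classical

local notation "Qb" => AlgebraicClosure ℚ

namespace FA.CMTorsionBound

section Short

variable {K : Type*} [Field K] [CharZero K] (E : WeierstrassCurve K)

theorem c₄_shortModel : (shortModel E).c₄ = E.c₄ := by
  simp [shortModel, c₄, b₂, b₄]; ring

theorem c₆_shortModel : (shortModel E).c₆ = E.c₆ := by
  simp [shortModel, c₆, b₂, b₄, b₆]; ring

theorem shortModel_shortModel : shortModel (shortModel E) = shortModel E := by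
  simp only [shortModel] at *
  ext <;> simp [c₄, c₆, b₂, b₄, b₆] <;> ring

variable [E.IsElliptic]

theorem j_eq_of_variableChange {W : WeierstrassCurve K} {C : VariableChange K} (h : C • E = W)
    [W.IsElliptic] : W.j = E.j := by
  subst h
  simp [variableChange_j]

theorem j_shortModel [(shortModel E).IsElliptic] : (shortModel E).j = E.j := by
  obtain ⟨C, hC⟩ := exists_variableChange E
  exact j_eq_of_variableChange E hC

end Short

/-- **A curve over `ℚ(j)` with the same multiplication.** -/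
theorem exists_curve {F : IntermediateField ℚ Qb} (E : WeierstrassCurve F) [E.IsElliptic]
    (ψ : F →+* ℂ) {D : ℤ} {L : PeriodPair} (h2 : L.g₂ = ψ E.c₄ / 12)
    (h3 : L.g₃ = ψ E.c₆ / 216) (hring : IsMultiplierRing L D) :
    ∃ (E' : WeierstrassCurve (IntermediateField.adjoin ℚ {(E.j : Qb)})) (_ : E'.IsElliptic)
      (ψ' : (IntermediateField.adjoin ℚ {(E.j : Qb)}) →+* ℂ) (L' : PeriodPair),
      (E'.j : Qb) = (E.j : Qb) ∧
      L'.g₂ = ψ' E'.c₄ / 12 ∧ L'.g₃ = ψ' E'.c₆ / 216 ∧ IsMultiplierRing L' D := by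
  obtain ⟨τ, c, hc, hlat, hj⟩ := FA.CMFields.exists_latPair_curve (E.map ψ) (L := L)
    (by rw [map_c₄]; exact h2) (by rw [map_c₆]; exact h3)
  rw [map_j] at hj
  have hτ := (isMultiplierRing_scale hlat D).1 hring
  set F' := IntermediateField.adjoin ℚ {(E.j : Qb)}
  have hle : F' ≤ F := IntermediateField.adjoin_simple_le_iff.mpr E.j.2
  set ψ' : F' →+* ℂ := ψ.comp (IntermediateField.inclusion hle).toRingHom with hψ'
  set x : F' := ⟨(E.j : Qb), IntermediateField.mem_adjoin_simple_self ℚ _⟩
  have hx : ψ' x = ψ E.j := rfl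
  obtain ⟨L', h2', h3'⟩ := FA.IsogenyNF.exists_lattice (WeierstrassCurve.ofJ x) ψ'
  obtain ⟨τ', c', hc', hlat', hj'⟩ := FA.CMFields.exists_latPair_curve
    ((WeierstrassCurve.ofJ x).map ψ') (L := L') (by rw [map_c₄]; exact h2')
    (by rw [map_c₆]; exact h3')
  rw [map_j, ofJ_j, hx, ← hj] at hj'
  obtain ⟨g, hg⟩ := (FA.JInj.jfun_eq_iff _ _).1 hj'
  refine ⟨WeierstrassCurve.ofJ x, inferInstance, ψ', L', by rw [ofJ_j], h2', h3',
    (isMultiplierRing_scale hlat' D).2 fun w => ?_⟩
  rw [← hτ w, ← hg, FA.Singular.stable_smul]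

/-- A point over `F` as a point over `ℚ̄`. -/
def upPoint {F : IntermediateField ℚ Qb} (E : WeierstrassCurve F) :
    E.toAffine.Point →+ (E.toAffine⁄Qb).Point :=
  Affine.Point.map (W' := E.toAffine) (S := F) (F := F) (Algebra.ofId F Qb)

theorem upPoint_injective {F : IntermediateField ℚ Qb} (E : WeierstrassCurve F) :
    Function.Injective (upPoint E) :=
  Affine.Point.map_injective (W' := E.toAffine) _

theorem upPoint_some {F : IntermediateField ℚ Qb} (E : WeierstrassCurve F) {x y : F}
    (h : E.toAffine.Nonsingular x y) :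
    ∃ h', upPoint E (.some x y h) = .some (x : Qb) (y : Qb) h' :=
  ⟨_, rfl⟩

/-- **The isomorphism keeps the invariant of the points over `F` in `F`.** -/
theorem exists_transfer {F' F : IntermediateField ℚ Qb} (hle : F' ≤ F) (E : WeierstrassCurve F)
    [E.IsElliptic] (E' : WeierstrassCurve F') [E'.IsElliptic] [(shortModel E).IsElliptic]
    [(shortModel E').IsElliptic] (hj : (E'.j : Qb) = (E.j : Qb)) {k : ℕ}
    (hk : (k = 1 ∧ E.c₄ ≠ 0 ∧ E.c₆ ≠ 0) ∨ (k = 2 ∧ E.c₆ = 0) ∨ (k = 3 ∧ E.c₄ = 0)) :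
    ∃ f : (E.toAffine⁄Qb).Point ≃+ ((shortModel E').toAffine⁄Qb).Point,
      ∀ P : E.toAffine.Point, xP (f (upPoint E P)) ^ k ∈ F := by
  haveI : ((shortModel E).baseChange Qb).IsElliptic :=
    inferInstanceAs ((shortModel E).map (algebraMap F Qb)).IsElliptic
  haveI : ((shortModel E').baseChange Qb).IsElliptic :=
    inferInstanceAs ((shortModel E').map (algebraMap F' Qb)).IsElliptic
  have hjj : ((shortModel E).baseChange Qb).j = ((shortModel E').baseChange Qb).j := by
    show ((shortModel E).map (algebraMap F Qb)).j = ((shortModel E').map (algebraMap F' Qb)).j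
    rw [map_j, map_j, j_shortModel, j_shortModel]
    exact hj.symm
  obtain ⟨C, hC⟩ := exists_variableChange_of_j_eq _ _ hjj
  have hu : (C.u : Qb) ≠ 0 := C.u.ne_zero
  obtain ⟨-, -, -, h4, h6⟩ := FA.Frob.vc_coeffs C hC
  obtain ⟨g1, g2, g3, -, -⟩ := FA.Frob.vc_coeffs C hC
  have hs : C.s = 0 := by
    simp [WeierstrassCurve.baseChange, shortModel] at g1
    exact g1
  have hr : C.r = 0 := by
    simp [WeierstrassCurve.baseChange, shortModel, hs] at g2
    exact g2
  have ht : C.t = 0 := by
    simp [WeierstrassCurve.baseChange, shortModel, hs, hr] at g3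
    exact g3
  have hA : ((shortModel E).a₄ : Qb) = (C.u : Qb) ^ 4 * ((shortModel E').a₄ : Qb) := by
    simp [WeierstrassCurve.baseChange, hs, hr, ht] at h4
    exact h4
  have hB : ((shortModel E).a₆ : Qb) = (C.u : Qb) ^ 6 * ((shortModel E').a₆ : Qb) := by
    simp [WeierstrassCurve.baseChange, hs, hr, ht] at h6
    exact h6
  -- the scaling
  have hA' : ((shortModel E').a₄ : Qb) ∈ F := hle (shortModel E').a₄.2
  have hB' : ((shortModel E').a₆ : Qb) ∈ F := hle (shortModel E').a₆.2
  have hA0 : E.c₄ ≠ 0 → ((shortModel E).a₄ : Qb) ≠ 0 := fun h0 => by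
    simpa [shortModel] using h0
  have hB0 : E.c₆ ≠ 0 → ((shortModel E).a₆ : Qb) ≠ 0 := fun h0 => by
    simpa [shortModel] using h0
  have hne : E.c₄ ≠ 0 ∨ E.c₆ ≠ 0 := by
    by_contra hc
    push Not at hc
    refine E.isUnit_Δ.ne_zero ?_
    have h := E.c_relation
    rw [hc.1, hc.2] at h
    linear_combination (1 / 1728 : F) * h
  have hukF : ((C.u : Qb) ^ 2) ^ k ∈ F := by
    rcases hk with ⟨rfl, h4', h6'⟩ | ⟨rfl, h6'⟩ | ⟨rfl, h4'⟩
    · have a0 := hA0 h4'
      have b0 := hB0 h6'
      rw [show ((C.u : Qb) ^ 2) ^ 1 = ((shortModel E).a₆ : Qb) * ((shortModel E').a₄ : Qb) /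
        (((shortModel E').a₆ : Qb) * ((shortModel E).a₄ : Qb)) by
          rw [hA, hB] at *
          have hAn := right_ne_zero_of_mul a0
          have hBn := right_ne_zero_of_mul b0
          field_simp]
      exact div_mem (mul_mem (shortModel E).a₆.2 hA') (mul_mem hB' (shortModel E).a₄.2)
    · have a0 := hA0 (hne.resolve_right (not_not.mpr h6'))
      rw [show ((C.u : Qb) ^ 2) ^ 2 = ((shortModel E).a₄ : Qb) / ((shortModel E').a₄ : Qb) by
        rw [hA] at a0 ⊢
        rw [mul_div_assoc, div_self (right_ne_zero_of_mul a0), mul_one, ← pow_mul]]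
      exact div_mem (shortModel E).a₄.2 hA'
    · have b0 := hB0 (hne.resolve_left (not_not.mpr h4'))
      rw [show ((C.u : Qb) ^ 2) ^ 3 = ((shortModel E).a₆ : Qb) / ((shortModel E').a₆ : Qb) by
        rw [hB] at b0 ⊢
        rw [mul_div_assoc, div_self (right_ne_zero_of_mul b0), mul_one, ← pow_mul]]
      exact div_mem (shortModel E).a₆.2 hB'
  -- the isomorphisms
  obtain ⟨C₀, hC₀⟩ := exists_variableChange E
  have hC₀' : C₀.map (algebraMap F Qb) • E.baseChange Qb = (shortModel E).baseChange Qb := by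
    simp only [WeierstrassCurve.baseChange, map_variableChange, hC₀]
  haveI : (E.baseChange Qb).IsElliptic := inferInstanceAs (E.map (algebraMap F Qb)).IsElliptic
  set e₀ := FA.Frob.vcEquiv _ hC₀'
  set e := FA.Frob.vcEquiv C hC
  refine ⟨e₀.symm.trans e.symm, fun P => ?_⟩
  set e₁ := FA.Frob.vcEquiv C₀ hC₀
  obtain ⟨P', rfl⟩ := e₁.surjective P
  have hup : e₀.symm (upPoint E (e₁ P')) = upPoint (shortModel E) P' := by
    rw [AddEquiv.symm_apply_eq]
    rcases P' with _ | ⟨a, b, hab⟩
    · exact (map_zero (upPoint E)).trans (map_zero e₀).symm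
    · refine (Affine.Point.some.injEq ..).mpr ⟨?_, ?_⟩ <;>
        simp [FA.Frob.vcX, FA.Frob.vcY, VariableChange.map]
  show xP (e.symm (e₀.symm (upPoint E (e₁ P')))) ^ k ∈ F
  rw [hup]
  rcases hQ : e.symm (upPoint (shortModel E) P') with _ | ⟨a', b', hab'⟩
  · simpa [xP] using pow_mem (zero_mem F) k
  rcases P' with _ | ⟨a, b, hab⟩
  · exact absurd (hQ.symm.trans ((congrArg e.symm (map_zero (upPoint (shortModel E)))).trans
      (map_zero e.symm))) (Affine.Point.some_ne_zero _)
  have hx := (AddEquiv.symm_apply_eq _).mp hQ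
  obtain ⟨h', e'⟩ := upPoint_some (shortModel E) hab
  rw [e', FA.Frob.vcEquiv_some, Affine.Point.some.injEq, FA.Frob.vcX, hr, add_zero] at hx
  show a' ^ k ∈ F
  rw [show a' = (a : Qb) / (C.u : Qb) ^ 2 by rw [hx.1]; field_simp, div_pow]
  exact div_mem (pow_mem a.2 k) hukF

end FA.CMTorsionBound
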