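import Fermat.Agent.CMRayClass.Torsion

/-!
# Counting the values of an invariant at the multiples of a point

If every value is taken at most `w` times outside the origin, a point of exact order `n` has at
least `φ(n) / w` values at its multiples prime to `n`; a power `k` of the abscissa is taken at most
`2 k` times.
-/

set_option autoImplicit false
set_option linter.unusedSectionVars false

noncomputable section

open WeierstrassCurve
open FA.ClassNumberOne (xP)
open scoped Classical

namespace FA.CMTorsionBound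

/-- A value of `x ^ k` is taken at most `2 k` times. -/
theorem card_fibre_le {F : Type*} [Field F] {W : WeierstrassCurve F} [W.IsElliptic] {k : ℕ}
    (hk : k ≠ 0) (v : F) (S : Finset W.toAffine.Point)
    (hS : ∀ Q ∈ S, Q ≠ 0 ∧ xP Q ^ k = v) : S.card ≤ 2 * k := by
  have himg : (S.image xP).card ≤ k := by
    refine (Finset.card_le_card (t := ((Polynomial.X ^ k - Polynomial.C v).roots).toFinset)
      fun x hx => ?_).trans ((Multiset.toFinset_card_le _).trans
        ((Polynomial.card_roots' _).trans (by rw [Polynomial.natDegree_X_pow_sub_C])))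
    obtain ⟨Q, hQ, rfl⟩ := Finset.mem_image.mp hx
    rw [Multiset.mem_toFinset, Polynomial.mem_roots
      (Polynomial.monic_X_pow_sub_C v hk).ne_zero]
    simp [(hS Q hQ).2]
  refine (Finset.card_le_mul_card_image (f := xP) S 2 fun x hx => ?_).trans
    (Nat.mul_le_mul_left 2 himg)
  obtain ⟨Q₀, hQ₀, hx₀⟩ := Finset.mem_image.mp hx
  refine (Finset.card_le_card (t := {Q₀, -Q₀}) fun Q hQ => ?_).trans Finset.card_le_two
  obtain ⟨hQS, hQx⟩ := Finset.mem_filter.mp hQ
  have h0 := (hS Q hQS).1
  have h1 := (hS Q₀ hQ₀).1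
  rw [Finset.mem_insert, Finset.mem_singleton]
  rcases Q with _ | ⟨a, b, ha⟩
  · exact absurd rfl h0
  rcases Q₀ with _ | ⟨a', b', ha'⟩
  · exact absurd rfl h1
  exact Affine.Point.X_eq_iff.mp (hQx.trans hx₀.symm : a = a')

/-- **The number of values at the multiples prime to the order.** -/
theorem totient_le_values {G β : Type*} [AddCommGroup G] {n : ℕ} (hn : n ≠ 0) {P : G}
    (hP : addOrderOf P = n) (h : G → β) {w : ℕ} (hw : 1 ≤ w)
    (hfib : ∀ (v : β) (S : Finset G), (∀ Q ∈ S, Q ≠ 0 ∧ h Q = v) → S.card ≤ w) :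
    n.totient ≤ w * ((fun c : ℤ => h (c • P)) '' {c | IsCoprime c (n : ℤ)}).ncard := by
  set V := (fun c : ℤ => h (c • P)) '' {c | IsCoprime c (n : ℤ)} with hV
  have hfinP : IsOfFinAddOrder P := addOrderOf_pos_iff.mp (hP ▸ Nat.pos_of_ne_zero hn)
  have hVfin : V.Finite := by
    refine (hfinP.finite_zmultiples.image h).subset ?_
    rintro _ ⟨c, -, rfl⟩
    exact ⟨c • P, ⟨c, rfl⟩, rfl⟩
  rcases eq_or_lt_of_le (Nat.one_le_iff_ne_zero.mpr hn) with h1 | h1
  · rw [← h1, Nat.totient_one]
    have : V.Nonempty := ⟨_, 1, isCoprime_one_left, rfl⟩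
    nlinarith [(Set.ncard_pos hVfin).mpr this]
  set S := ((Finset.range n).filter fun c => n.Coprime c).image fun c => c • P
  have hS : S.card = n.totient := by
    rw [Nat.totient_eq_card_coprime, Finset.card_image_of_injOn]
    intro a ha b hb hab
    simp only [Finset.coe_filter, Finset.mem_range, Set.mem_ofPred_eq] at ha hb
    exact nsmul_injOn_Iio_addOrderOf (Set.mem_Iio.mpr (hP ▸ ha.1)) (Set.mem_Iio.mpr (hP ▸ hb.1))
      hab
  rw [← hS, Set.ncard_eq_toFinset_card V hVfin]
  refine (Finset.card_le_mul_card_image (f := h) S w fun v _ =>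
    hfib v _ fun Q hQ => ?_).trans (Nat.mul_le_mul_left w (Finset.card_le_card fun v hv => ?_))
  · obtain ⟨hQS, hQv⟩ := Finset.mem_filter.mp hQ
    obtain ⟨c, hc, rfl⟩ := Finset.mem_image.mp hQS
    refine ⟨fun e => ?_, hQv⟩
    obtain ⟨-, hc⟩ := Finset.mem_filter.mp hc
    rw [← addOrderOf_dvd_iff_nsmul_eq_zero, hP] at e
    exact h1.ne' ((Nat.Coprime.eq_one_of_dvd hc e))
  · obtain ⟨Q, hQ, rfl⟩ := Finset.mem_image.mp hv
    obtain ⟨c, hc, rfl⟩ := Finset.mem_image.mp hQ
    rw [Set.Finite.mem_toFinset]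
    refine ⟨c, Int.isCoprime_iff_nat_coprime.mpr ?_, congrArg h (natCast_zsmul P c)⟩
    simpa using (Finset.mem_filter.mp hc).2.symm

end FA.CMTorsionBound
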