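import Fermat.Agent.CMRayClass.Torsion

/-!
# The scalar multiples of a torsion point are conjugate

Let the points killed by `n` of a curve `W` over `F` have an action of `𝓞/n` commuting with the
automorphisms over `F(√d)`, and let `h` be an invariant under a group `H` of units. If the field of
the values of `h` has the degree allowed by `(𝓞/n)ˣ / H`, then every unit occurs, so for `c` prime
to `n` the value at `c • P` is a conjugate of the value at `P`.
-/

set_option autoImplicit false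
set_option linter.style.haveILetI false
set_option linter.unusedSectionVars false

noncomputable section

open WeierstrassCurve NumberField Module FA.IsogenyNF FA.CMFields
open FA.FieldClassBound (discK discK_neg exists_omega_coord)
open FA.CMRayClass (span_natCast_ne_bot)
open scoped WeierstrassCurve.Affine Classical

local notation "Qb" => AlgebraicClosure ℚ
local notation "𝕆[" s "]" => 𝓞 (IntermediateField.adjoin ℚ ({s} : Set (AlgebraicClosure ℚ)))

namespace FA.CMTorsionBound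

variable {d : ℤ}

/-- A field with finitely many adjoined elements over the compositum with `ℚ(√d)`. -/
theorem adjoin_union_eq (F : IntermediateField ℚ Qb) (s : Qb) (X : Set Qb) :
    IntermediateField.adjoin ℚ ((F : Set Qb) ∪ {s} ∪ X) =
      (IntermediateField.adjoin (F ⊔ IntermediateField.adjoin ℚ {s} : IntermediateField ℚ Qb)
        X).restrictScalars ℚ := by
  set G : IntermediateField ℚ Qb := F ⊔ IntermediateField.adjoin ℚ {s}
  rw [show (IntermediateField.adjoin G X).restrictScalars ℚ =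
    IntermediateField.adjoin ℚ ((G : Set Qb) ∪ X) from
    IntermediateField.restrictScalars_adjoin ℚ G X]
  refine le_antisymm (IntermediateField.adjoin.mono ℚ _ _ (Set.union_subset_union_left _ ?_))
    (IntermediateField.adjoin_le_iff.mpr (Set.union_subset ?_ ?_))
  · exact Set.union_subset (le_sup_left : F ≤ G)
      (Set.singleton_subset_iff.mpr ((le_sup_right : IntermediateField.adjoin ℚ {s} ≤ G)
        (IntermediateField.mem_adjoin_simple_self ℚ s)))
  · refine SetLike.coe_subset_coe.mpr (sup_le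
      (fun z hz => IntermediateField.subset_adjoin ℚ _ (Or.inl (Or.inl hz)))
      (IntermediateField.adjoin_simple_le_iff.mpr
        (IntermediateField.subset_adjoin ℚ _ (Or.inl (Or.inr (Set.mem_singleton s))))))
  · exact fun z hz => IntermediateField.subset_adjoin ℚ _ (Or.inr hz)

/-- **The values at the scalar multiples prime to the order bound the degree of the value.** -/
theorem ncard_le_finrank (F : IntermediateField ℚ (AlgebraicClosure ℚ))
    [FiniteDimensional ℚ F] (W : WeierstrassCurve F) [W.IsElliptic] (hd : Squarefree d)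
    (hd0 : d < 0) {s : AlgebraicClosure ℚ} (hs : s ^ 2 = (d : AlgebraicClosure ℚ))
    [NumberField (IntermediateField.adjoin ℚ {s})] {n : ℕ} (hn : n ≠ 0)
    (θ : (W.toAffine⁄Qb).Point →+ (W.toAffine⁄Qb).Point) {t m : ℤ}
    (hquad : omega (discK d) ^ 2 - (t : ℂ) * omega (discK d) + (m : ℂ) = 0)
    (hθθ : ∀ P : (W.toAffine⁄Qb).Point, n • P = 0 → θ (θ P) = t • θ P - m • P)
    (hact : ∀ σ : Qb ≃ₐ[F] Qb, σ s = s → (∀ P, θ (σ • P) = σ • θ P) ∧ ∃ α k : ℤ,
      ∀ P : (W.toAffine⁄Qb).Point, n • P = 0 → σ • P = α • P + k • θ P)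
    (hfaith : ∀ c c' : ℤ, (∀ P : (W.toAffine⁄Qb).Point, n • P = 0 → c • P + c' • θ P = 0) →
      (n : ℤ) ∣ c ∧ (n : ℤ) ∣ c')
    {h : (W.toAffine⁄Qb).Point → Qb} (hh : ∀ (σ : Qb ≃ₐ[F] Qb) P, h (σ • P) = σ (h P))
    {e : IntermediateField.adjoin ℚ {s} →+* ℂ}
    (he : e ⟨s, IntermediateField.mem_adjoin_simple_self ℚ s⟩ =
      Complex.I * (Real.sqrt (-(d : ℝ)) : ℂ))
    {w : 𝕆[s]} (hw : e (w : IntermediateField.adjoin ℚ {s}) = omega (discK d))
    {I : Ideal 𝕆[s]} (hI : I = Ideal.span {(n : 𝕆[s])}) (H : Subgroup (𝕆[s] ⧸ I)ˣ)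
    (hH : ∀ c ∈ H, ∃ a b : ℤ,
      Ideal.Quotient.mk I ((a : 𝕆[s]) + (b : 𝕆[s]) * w) = c ∧
        ∀ P : (W.toAffine⁄Qb).Point, n • P = 0 → h (a • P + b • θ P) = h P)
    {r : ℕ} (hr : r ≠ 0)
    (hG : finrank ℚ (F ⊔ IntermediateField.adjoin ℚ {s} : IntermediateField ℚ Qb) ≤ r)
    (hlow : r * Nat.card ((𝕆[s] ⧸ I)ˣ ⧸ H) ≤
      finrank ℚ (IntermediateField.adjoin ℚ ((F : Set Qb) ∪ {s} ∪
        h '' {P : (W.toAffine⁄Qb).Point | n • P = 0})))
    {P : (W.toAffine⁄Qb).Point} (hP : n • P = 0) :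
    r * ((fun c : ℤ => h (c • P)) '' {c | IsCoprime c (n : ℤ)}).ncard ≤
      finrank ℚ (IntermediateField.adjoin ℚ ((F : Set Qb) ∪ {s} ∪ {h P})) := by
  haveI : IsGalois ℚ Qb := FA.EC.isGalois_algebraicClosure
  haveI : Algebra.IsAlgebraic F Qb := Algebra.IsAlgebraic.tower_top (K := ℚ) F
  set G : IntermediateField ℚ Qb := F ⊔ IntermediateField.adjoin ℚ {s}
  haveI : Algebra.IsAlgebraic G Qb := Algebra.IsAlgebraic.tower_top (K := ℚ) G
  haveI : FiniteDimensional ℚ G := IntermediateField.finiteDimensional_sup _ _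
  haveI : Normal G Qb := Normal.tower_top_of_normal ℚ G Qb
  set X : Set Qb := h '' {P : (W.toAffine⁄Qb).Point | n • P = 0} with hX
  haveI : Finite X := ((finite_nsmul_eq_zero (W := W) hn).image _).to_subtype
  set M' : IntermediateField G Qb := IntermediateField.adjoin G X with hM'
  haveI : FiniteDimensional G M' :=
    IntermediateField.finiteDimensional_adjoin fun z _ => Algebra.IsIntegral.isIntegral z
  -- the action of the integers of `ℚ(√d)`
  haveI : Finite (𝕆[s] ⧸ I) :=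
    Ideal.finiteQuotientOfFreeOfNeBot I (hI ▸ span_natCast_ne_bot hn)
  have hK := FA.Jugendtraum.finrank_adjoin_sqrt hd0 hs
  have hsK : (⟨s, IntermediateField.mem_adjoin_simple_self ℚ s⟩ :
      IntermediateField.adjoin ℚ {s}) ^ 2 = (d : IntermediateField.adjoin ℚ {s}) :=
    Subtype.ext (by simpa using hs)
  choose A B hAB using exists_omega_coord hK hd hd0 hsK he
  have huniq : ∀ a b a' b' : ℤ, (a : ℂ) + (b : ℂ) * omega (discK d) =
      (a' : ℂ) + (b' : ℂ) * omega (discK d) → a = a' ∧ b = b' := by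
    intro a b a' b' hab
    have hb : b = b' := by
      have hpos : 0 < (omega (discK d)).im := by
        rw [omega_im]
        exact div_pos (Real.sqrt_pos.mpr (neg_pos.mpr (Int.cast_lt_zero.mpr (discK_neg hd0))))
          two_pos
      have := congrArg Complex.im hab
      simp at this
      exact this.resolve_right hpos.ne'
    subst hb
    exact ⟨by simpa using hab, rfl⟩
  let act : 𝕆[s] → (W.toAffine⁄Qb).Point → (W.toAffine⁄Qb).Point :=
    fun z Q => A z • Q + B z • θ Q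
  have hact_coord : ∀ (a b : ℤ) Q, act ((a : 𝕆[s]) + (b : 𝕆[s]) * w) Q = a • Q + b • θ Q := by
    intro a b Q
    obtain ⟨ha, hb⟩ := huniq _ _ a b
      ((hAB ((a : 𝕆[s]) + (b : 𝕆[s]) * w)).symm.trans (by simp [hw]))
    simp only [act, ha, hb]
  have hw2 : w * w = (t : 𝕆[s]) * w - (m : 𝕆[s]) :=
    RingOfIntegers.coe_injective (e.injective (by
      simp only [map_mul, map_sub, map_intCast, hw]
      linear_combination hquad))
  have hcoord : ∀ z : 𝕆[s], z = (A z : 𝕆[s]) + (B z : 𝕆[s]) * w := fun z =>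
    RingOfIntegers.coe_injective (e.injective (by simp [hAB z, hw]))
  have hθk : ∀ Q : (W.toAffine⁄Qb).Point, n • Q = 0 → n • θ Q = 0 := fun Q hQ => by
    rw [← map_nsmul, hQ, map_zero]
  have hact_mul : ∀ z z' : 𝕆[s], ∀ Q, n • Q = 0 → act (z * z') Q = act z (act z' Q) := by
    intro z z' Q hQ
    have e1 : z * z' = ((A z * A z' - B z * B z' * m : ℤ) : 𝕆[s]) +
        ((A z * B z' + B z * A z' + B z * B z' * t : ℤ) : 𝕆[s]) * w := by
      conv_lhs => rw [hcoord z, hcoord z']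
      push_cast
      linear_combination (B z : 𝕆[s]) * (B z' : 𝕆[s]) * hw2
    rw [e1, hact_coord]
    simp only [act, map_add, map_zsmul, hθθ Q hQ]
    module
  have hact_congr : ∀ z z' : 𝕆[s], Ideal.Quotient.mk I z = Ideal.Quotient.mk I z' →
      ∀ Q, n • Q = 0 → act z Q = act z' Q := by
    intro z z' hzz Q hQ
    obtain ⟨u, hu⟩ := Ideal.mem_span_singleton.mp (hI ▸ Ideal.Quotient.eq.mp hzz)
    have e1 : z = ((A z' + (n : ℤ) * A u : ℤ) : 𝕆[s]) +
        ((B z' + (n : ℤ) * B u : ℤ) : 𝕆[s]) * w := by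
      push_cast
      linear_combination hu + hcoord z' + (n : 𝕆[s]) * hcoord u
    have h1 : ((n : ℤ) * A u) • Q = 0 := by
      rw [mul_comm, mul_zsmul', natCast_zsmul, smul_comm, hQ, zsmul_zero]
    have h2 : ((n : ℤ) * B u) • θ Q = 0 := by
      rw [mul_comm, mul_zsmul', natCast_zsmul, smul_comm, hθk Q hQ, zsmul_zero]
    conv_lhs => rw [e1, hact_coord, add_zsmul, add_zsmul, h1, h2, add_zero, add_zero]
  have hact_killed : ∀ z Q, n • Q = 0 → n • act z Q = 0 := fun z Q hQ => by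
    show n • (A z • Q + B z • θ Q) = 0
    rw [nsmul_add, smul_comm, hQ, zsmul_zero, smul_comm, hθk Q hQ, zsmul_zero, add_zero]
  -- the values at the multiples by a unit
  let Φ : (𝕆[s] ⧸ I)ˣ → {Q : (W.toAffine⁄Qb).Point // n • Q = 0} → Qb := fun u Q =>
    h (act (Ideal.Quotient.mk_surjective (u : 𝕆[s] ⧸ I)).choose Q.1)
  have hΦ : ∀ (u : (𝕆[s] ⧸ I)ˣ) (z : 𝕆[s]), Ideal.Quotient.mk I z = u → ∀ Q, Φ u Q =
      h (act z Q.1) := fun u z hz Q => congrArg h (hact_congr _ _
    ((Ideal.Quotient.mk_surjective (u : 𝕆[s] ⧸ I)).choose_spec.trans hz.symm) Q.1 Q.2)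
  have hΦH : ∀ u u' : (𝕆[s] ⧸ I)ˣ, (QuotientGroup.mk u : _ ⧸ H) = QuotientGroup.mk u' →
      Φ u = Φ u' := by
    intro u u' huu
    obtain ⟨a, b, hab, hinv⟩ := hH _ (QuotientGroup.eq.mp huu)
    obtain ⟨z, hz⟩ := Ideal.Quotient.mk_surjective (u : 𝕆[s] ⧸ I)
    funext Q
    rw [hΦ u z hz Q, hΦ u' (((a : 𝕆[s]) + (b : 𝕆[s]) * w) * z)
        (by rw [map_mul, hab, hz, ← Units.val_mul, mul_comm, mul_inv_cancel_left]) Q,
      hact_mul _ _ _ Q.2, hact_coord]
    exact (hinv _ (hact_killed z Q.1 Q.2)).symm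
  have hrange : (Set.range Φ).ncard ≤ Nat.card ((𝕆[s] ⧸ I)ˣ ⧸ H) := by
    rw [show Set.range Φ = Set.range fun c : (𝕆[s] ⧸ I)ˣ ⧸ H => Φ c.out from
      Set.Subset.antisymm
        (by rintro _ ⟨u, rfl⟩; exact ⟨QuotientGroup.mk u, hΦH _ _ (QuotientGroup.out_eq' _)⟩)
        (by rintro _ ⟨c, rfl⟩; exact ⟨_, rfl⟩), ← Nat.card_coe_set_eq]
    exact Nat.card_le_card_of_surjective _ Set.rangeFactorization_surjective
  -- every embedding is given by a unit
  have hmem : ∀ Q : {Q : (W.toAffine⁄Qb).Point // n • Q = 0}, h Q.1 ∈ M' := fun Q =>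
    IntermediateField.subset_adjoin G X ⟨Q.1, Q.2, rfl⟩
  let T : (M' →ₐ[G] Qb) → {Q : (W.toAffine⁄Qb).Point // n • Q = 0} → Qb :=
    fun f Q => f ⟨h Q.1, hmem Q⟩
  have hT : ∀ f, T f ∈ Set.range Φ := fun f => by
    let g : Qb ≃ₐ[G] Qb :=
      AlgEquiv.ofBijective (f.liftNormal Qb) (AlgHom.normal_bijective G Qb Qb _)
    let σ : Qb ≃ₐ[F] Qb := AlgEquiv.ofRingEquiv (f := g.toRingEquiv) fun y =>
      g.commutes ⟨y, (le_sup_left : F ≤ G) y.2⟩
    have hσs : σ s = s := g.commutes ⟨s, (le_sup_right : IntermediateField.adjoin ℚ {s} ≤ G)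
      (IntermediateField.mem_adjoin_simple_self ℚ s)⟩
    have hσs' : σ⁻¹ s = s := by
      conv_lhs => rw [← hσs]
      exact σ.symm_apply_apply s
    obtain ⟨hcomm, α, k, hαk⟩ := hact σ hσs
    obtain ⟨-, α', k', hαk'⟩ := hact σ⁻¹ hσs'
    set z := (α : 𝕆[s]) + (k : 𝕆[s]) * w
    set z' := (α' : 𝕆[s]) + (k' : 𝕆[s]) * w
    have hone : Ideal.Quotient.mk I (z * z') = 1 := by
      obtain ⟨⟨u, hu⟩, v, hv⟩ := hfaith (A (z * z') - 1) (B (z * z')) fun Q hQ => by
        have h' : act (z * z') Q = Q := by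
          rw [hact_mul z z' Q hQ, hact_coord α' k', ← hαk' Q hQ, hact_coord, ← hαk _ (by
            rw [← smul_nsmul', hQ, smul_zero]), smul_inv_smul]
        refine Eq.trans ?_ (sub_eq_zero.mpr h')
        show _ = A (z * z') • Q + B (z * z') • θ Q - Q
        module
      rw [← map_one (Ideal.Quotient.mk I), Ideal.Quotient.eq, hI, Ideal.mem_span_singleton]
      refine ⟨(u : 𝕆[s]) + (v : 𝕆[s]) * w, ?_⟩
      have hu' := congrArg (Int.cast (R := 𝕆[s])) hu
      have hv' := congrArg (Int.cast (R := 𝕆[s])) hv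
      push_cast at hu' hv'
      linear_combination hu' + w * hv' + hcoord (z * z')
    rw [map_mul] at hone
    refine ⟨(IsUnit.of_mul_eq_one _ hone).unit, funext fun Q => ?_⟩
    rw [hΦ _ z (IsUnit.unit_spec _).symm Q, hact_coord, ← hαk Q.1 Q.2, hh]
    exact f.liftNormal_commutes Qb ⟨h Q.1, hmem Q⟩
  have hTinj : Function.Injective T := fun f f' hff =>
    IntermediateField.algHom_ext_of_eq_adjoin _ rfl fun y hy => by
      obtain ⟨Q, hQ, rfl⟩ := hy
      exact congrFun hff ⟨Q, hQ⟩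
  have hcardT : Nat.card (M' →ₐ[G] Qb) = finrank G M' := by
    rw [Nat.card_eq_fintype_card, AlgHom.card G M' Qb]
  have hM : finrank ℚ G * finrank G M' = finrank ℚ (IntermediateField.adjoin ℚ
      ((F : Set Qb) ∪ {s} ∪ X)) := by
    rw [adjoin_union_eq F s X, show finrank ℚ (M'.restrictScalars ℚ) = finrank ℚ M' from rfl]
    exact finrank_mul_finrank ℚ G M'
  have hTrange : (Set.range T).ncard = finrank G M' := by
    rw [← hcardT, ← Nat.card_coe_set_eq, Nat.card_range_of_injective hTinj]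
  have hfin : (Set.range Φ).Finite := Set.finite_range Φ
  have hsub : Set.range T ⊆ Set.range Φ := Set.range_subset_iff.mpr hT
  have h1 : finrank G M' ≤ Nat.card ((𝕆[s] ⧸ I)ˣ ⧸ H) :=
    hTrange.ge.trans ((Set.ncard_le_ncard hsub hfin).trans hrange)
  have hcard : 0 < Nat.card ((𝕆[s] ⧸ I)ˣ ⧸ H) := Nat.card_pos
  rw [← hM] at hlow
  have hGr : finrank ℚ G = r := le_antisymm hG (Nat.le_of_mul_le_mul_right
    (hlow.trans (Nat.mul_le_mul_left _ h1)) hcard)
  have h2 : Nat.card ((𝕆[s] ⧸ I)ˣ ⧸ H) ≤ finrank G M' := by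
    rw [hGr] at hlow
    exact Nat.le_of_mul_le_mul_left hlow (Nat.pos_of_ne_zero hr)
  have heq : Set.range T = Set.range Φ :=
    Set.eq_of_subset_of_ncard_le hsub (hrange.trans (h2.trans hTrange.ge)) hfin
  -- the conjugates of the value at `P`
  rw [adjoin_union_eq F s {h P}, show finrank ℚ ((IntermediateField.adjoin G {h P}).restrictScalars
    ℚ) = finrank ℚ (IntermediateField.adjoin G {h P}) from rfl,
    ← finrank_mul_finrank ℚ G (IntermediateField.adjoin G {h P}), hGr,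
    IntermediateField.adjoin.finrank (Algebra.IsIntegral.isIntegral _)]
  refine Nat.mul_le_mul_left r (le_trans ?_ (Polynomial.ncard_rootSet_le (minpoly G (h P)) Qb))
  refine Set.ncard_le_ncard ?_ (Polynomial.rootSet_finite _ _)
  rintro _ ⟨c, ⟨a, b, hab⟩, rfl⟩
  have hc : IsUnit (Ideal.Quotient.mk I (c : 𝕆[s])) :=
    IsUnit.of_mul_eq_one (Ideal.Quotient.mk I (a : 𝕆[s])) (by
      rw [← map_mul, ← map_one (Ideal.Quotient.mk I), Ideal.Quotient.eq, hI,
        Ideal.mem_span_singleton]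
      refine ⟨-(b : 𝕆[s]), ?_⟩
      have hab' := congrArg (Int.cast (R := 𝕆[s])) hab
      push_cast at hab'
      linear_combination hab')
  obtain ⟨f, hf⟩ : Φ hc.unit ∈ Set.range T := heq ▸ Set.mem_range_self _
  have hval : f ⟨h P, hmem ⟨P, hP⟩⟩ = h (c • P) := by
    refine (congrFun hf ⟨P, hP⟩).trans ((hΦ _ (c : 𝕆[s]) hc.unit_spec.symm ⟨P, hP⟩).trans ?_)
    have := hact_coord c 0 P
    rw [Int.cast_zero, zero_mul, add_zero, zero_zsmul, add_zero] at this
    rw [this]
  rw [Polynomial.mem_rootSet]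
  refine ⟨minpoly.ne_zero (Algebra.IsIntegral.isIntegral _), ?_⟩
  show Polynomial.aeval (h (c • P)) (minpoly G (h P)) = 0
  have hmin : minpoly G (h P) = minpoly G (⟨h P, hmem ⟨P, hP⟩⟩ : M') :=
    minpoly.algHom_eq M'.val Subtype.val_injective ⟨h P, hmem ⟨P, hP⟩⟩
  rw [← hval, hmin, Polynomial.aeval_algHom_apply, minpoly.aeval, map_zero]

end FA.CMTorsionBound
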