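import Fermat.Agent.CMTorsionBound.Multiplier
import Fermat.Agent.CMTorsionBound.Orbit
import Fermat.Agent.CMTorsionBound.Count
import Fermat.Agent.CMTorsionBound.Transfer
import Fermat.Agent.Root.SummaryCMWeberFunctions

/-!
# Silverberg's bound

A point of exact order `n` over a field `F` on a curve with multiplication by the maximal order of
`K = ℚ(√d)` gives `h φ(n) ≤ k [F K : ℚ]`, where `h` is the class number and `2 k` the number of
units of `K`.
-/

set_option autoImplicit false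
set_option linter.style.haveILetI false
set_option linter.unusedSectionVars false

noncomputable section

open WeierstrassCurve NumberField Module FA.IsogenyNF FA.CMFields
open FA.FieldClassBound (discK exists_emb exists_omega exists_omega_coord)
open FA.CMRayClass (span_natCast_ne_bot)
open FA.Hecke (RayClassGroup)
open FA.ClassNumberOne (xP)
open scoped WeierstrassCurve.Affine Classical

local notation "Qb" => AlgebraicClosure ℚ
local notation "𝕆[" s "]" => 𝓞 (IntermediateField.adjoin ℚ ({s} : Set (AlgebraicClosure ℚ)))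

namespace FA.CMTorsionBound

variable {d : ℤ}

/-- The multiplier ring in the notation of the summaries. -/
theorem expand_ring {L : PeriodPair} (hring : IsMultiplierRing L (discK d)) :
    ∀ w : ℂ, (∀ l ∈ L.lattice, w * l ∈ L.lattice) ↔
      ∃ u v : ℤ, w = (u : ℂ) + (v : ℂ) * ((((if d % 4 = 1 then d else 4 * d : ℤ)) : ℂ) +
        Complex.I * (Real.sqrt (-((if d % 4 = 1 then d else 4 * d : ℤ) : ℝ)) : ℂ)) / 2 :=
  fun w => (hring w).trans (by simp only [omega, discK, mul_div_assoc])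

/-- The degree of `K(j)` is at most twice the class number. -/
theorem finrank_sup_le_class (hd : Squarefree d) (hd0 : d < 0) {F : IntermediateField ℚ Qb}
    (E : WeierstrassCurve F) [E.IsElliptic]
    (hF : F = IntermediateField.adjoin ℚ {(E.j : Qb)}) (ψ : F →+* ℂ) {L : PeriodPair}
    (h2 : L.g₂ = ψ E.c₄ / 12) (h3 : L.g₃ = ψ E.c₆ / 216)
    (hring : IsMultiplierRing L (discK d)) {s : Qb} (hs : s ^ 2 = (d : Qb))
    [NumberField (IntermediateField.adjoin ℚ {s})] :
    finrank ℚ (F ⊔ IntermediateField.adjoin ℚ {s} : IntermediateField ℚ Qb) ≤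
      2 * classNumber (IntermediateField.adjoin ℚ {s}) := by
  refine (IntermediateField.finrank_sup_le _ _).trans ?_
  rw [FA.Jugendtraum.finrank_adjoin_sqrt hd0 hs, FA.CMRayClass.classNumber_adjoin hd hd0 hs, hF,
    (FA.CMRayClass.exists_curve_adjoin_j E ψ (FA.FieldClassBound.discK_neg hd0) h2 h3 hring).1,
    mul_comm]

section Generic

variable (hd : Squarefree d) (hd0 : d < 0) (hd1 : d ≠ -1) (hd3 : d ≠ -3)
  {F : IntermediateField ℚ Qb} [FiniteDimensional ℚ F] (E : WeierstrassCurve F) [E.IsElliptic]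
  (hF : F = IntermediateField.adjoin ℚ {(E.j : Qb)}) (ψ : F →+* ℂ) {L : PeriodPair}
  (h2 : L.g₂ = ψ E.c₄ / 12) (h3 : L.g₃ = ψ E.c₆ / 216) (hring : IsMultiplierRing L (discK d))
  {s : Qb} (hs : s ^ 2 = (d : Qb)) [NumberField (IntermediateField.adjoin ℚ {s})]
include hd hd0 hd1 hd3 hF h2 h3 hring hs

/-- The degree of `K(j, x(E[n]))` from below. -/
theorem degree_low_generic {n : ℕ} (hn : n ≠ 0) :
    2 * classNumber (IntermediateField.adjoin ℚ {s}) *
        Nat.card ((𝕆[s] ⧸ Ideal.span {(n : 𝕆[s])})ˣ ⧸ FA.CMRayClass.pmOne _) ≤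
      finrank ℚ (IntermediateField.adjoin ℚ ((F : Set Qb) ∪ {s} ∪
        xP '' {P : (E.toAffine⁄Qb).Point | n • P = 0})) := by
  rw [← FA.CMRayClass.adjoin_abscissae,
    (FA.Summary.rayClassField_eq_adjoin_torsion hd hd0 hd1 hd3 F E hF ψ h2 h3 (expand_ring hring)
      hs hn rfl).1, mul_assoc]
  refine Nat.mul_le_mul_left 2 (FA.CMRayClass.classNumber_mul_le hn fun u => ?_)
  rcases FA.CMRayClass.unit_eq_one_or
    (s := ⟨s, IntermediateField.mem_adjoin_simple_self ℚ s⟩)
    (FA.Jugendtraum.finrank_adjoin_sqrt hd0 hs) hd hd0 hd1 hd3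
    (Subtype.ext (by simpa using hs)) u with h | h
  · exact Or.inl (by rw [h, sub_self]; exact dvd_zero _)
  · exact Or.inr (by rw [h, neg_add_cancel]; exact dvd_zero _)

/-- The conjugates of the abscissa of a torsion point, `d ≠ -1, -3`. -/
theorem orbit_generic {n : ℕ} (hn : n ≠ 0) {P : (E.toAffine⁄Qb).Point} (hP : n • P = 0) :
    2 * classNumber (IntermediateField.adjoin ℚ {s}) *
        ((fun c : ℤ => xP (c • P) ^ 1) '' {c | IsCoprime c (n : ℤ)}).ncard ≤
      finrank ℚ (IntermediateField.adjoin ℚ ((F : Set Qb) ∪ {s} ∪ {xP P ^ 1})) := by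
  rw [show (fun c : ℤ => xP (c • P) ^ 1) = fun c => xP (c • P) from funext fun _ => pow_one _,
    pow_one]
  have hcl : classNumber (IntermediateField.adjoin ℚ {s}) ≠ 0 := Fintype.card_ne_zero
  obtain ⟨θ, t, m, hquad, hθθ, hact, hfaith⟩ :=
    FA.CMRayClass.exists_action E ψ hd0 h2 h3 hring hs hn
  have hsK : (⟨s, IntermediateField.mem_adjoin_simple_self ℚ s⟩ :
      IntermediateField.adjoin ℚ {s}) ^ 2 = (d : IntermediateField.adjoin ℚ {s}) :=
    Subtype.ext (by simpa using hs)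
  obtain ⟨e, he⟩ := exists_emb hd0 hsK
  obtain ⟨w, hw⟩ := exists_omega hsK he
  refine ncard_le_finrank F E hd hd0 hs hn θ hquad hθθ hact hfaith (h := xP)
    (fun σ P => FA.IsogenyNF.xP_smul (σ := σ) P) he hw rfl (FA.CMRayClass.pmOne _) ?_
    (mul_ne_zero two_ne_zero hcl)
    (finrank_sup_le_class hd hd0 E hF ψ h2 h3 hring hs)
    (degree_low_generic hd hd0 hd1 hd3 E hF ψ h2 h3 hring hs hn) hP
  rintro c (rfl | rfl)
  · exact ⟨1, 0, by simp, fun P _ => by simp⟩
  · refine ⟨-1, 0, by simp, fun P _ => ?_⟩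
    rw [zero_zsmul, add_zero, neg_one_zsmul]
    rcases P with _ | ⟨u, v, h'⟩ <;> rfl

end Generic

/-- The conjugates of Weber's value at a torsion point, `d = -1, -3`. -/
theorem orbit_weber {k : ℕ} (h : FA.CMWeber.Special d k) {F : IntermediateField ℚ Qb}
    [FiniteDimensional ℚ F] (E : WeierstrassCurve F) [E.IsElliptic] [(shortModel E).IsElliptic]
    (hF : F = IntermediateField.adjoin ℚ {(E.j : Qb)}) (ψ : F →+* ℂ) {L : PeriodPair}
    (h2 : L.g₂ = ψ E.c₄ / 12) (h3 : L.g₃ = ψ E.c₆ / 216) (hring : IsMultiplierRing L (discK d))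
    {s : Qb} (hs : s ^ 2 = (d : Qb)) [NumberField (IntermediateField.adjoin ℚ {s})]
    {n : ℕ} (hn : n ≠ 0) {P : ((shortModel E).toAffine⁄Qb).Point} (hP : n • P = 0) :
    2 * classNumber (IntermediateField.adjoin ℚ {s}) *
        ((fun c : ℤ => xP (c • P) ^ k) '' {c | IsCoprime c (n : ℤ)}).ncard ≤
      finrank ℚ (IntermediateField.adjoin ℚ ((F : Set Qb) ∪ {s} ∪ {xP P ^ k})) := by
  have hd0 := h.neg
  have hd := h.squarefree
  have hcl : classNumber (IntermediateField.adjoin ℚ {s}) ≠ 0 := Fintype.card_ne_zero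
  obtain ⟨φ, hL, -⟩ := FA.CMWeber.exists_short_emb E ψ h2 h3
  obtain ⟨θ, t, m, -, -, hquad, hθθ, hact, hfaith, -, -, -, -, -, hunit⟩ :=
    FA.CMWeber.exists_rot_action hL h hring hs hn
  have hK := FA.Jugendtraum.finrank_adjoin_sqrt hd0 hs
  set sK : IntermediateField.adjoin ℚ {s} :=
    ⟨s, IntermediateField.mem_adjoin_simple_self ℚ s⟩
  have hsK : sK ^ 2 = (d : IntermediateField.adjoin ℚ {s}) :=
    Subtype.ext (by simpa [sK] using hs)
  obtain ⟨e, he⟩ := exists_emb hd0 hsK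
  obtain ⟨w, hw⟩ := exists_omega hsK he
  refine ncard_le_finrank F (shortModel E) hd hd0 hs hn θ hquad hθθ hact hfaith
    (h := fun P => xP P ^ k)
    (fun σ P => by rw [map_pow]; exact congrArg (· ^ k) (FA.IsogenyNF.xP_smul (σ := σ) P))
    he hw rfl (Units.map (Ideal.Quotient.mk (Ideal.span {(n : 𝕆[s])})).toMonoidHom).range ?_
    (mul_ne_zero two_ne_zero hcl)
    (finrank_sup_le_class hd hd0 E hF ψ h2 h3 hring hs) ?_ hP
  · rintro _ ⟨u, rfl⟩
    obtain ⟨a, b, hab⟩ := exists_omega_coord hK hd hd0 hsK he (u : 𝕆[s])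
    obtain ⟨a', b', hab'⟩ := exists_omega_coord hK hd hd0 hsK he ((u⁻¹ : 𝕆[s]ˣ) : 𝕆[s])
    have hu : (u : 𝕆[s]) = (a : 𝕆[s]) + (b : 𝕆[s]) * w :=
      RingOfIntegers.coe_injective (e.injective (by simp [hab, hw]))
    refine ⟨a, b, by rw [← hu]; rfl, fun P _ => ?_⟩
    have hmul : ((a : ℂ) + (b : ℂ) * omega (discK d)) * ((a' : ℂ) + (b' : ℂ) * omega (discK d)) =
        1 := by
      rw [← hab, ← hab', ← map_mul, ← map_mul, Units.mul_inv, map_one, map_one]
    refine hunit a b (left_ne_zero_of_mul_eq_one hmul) ((hring _).2 ⟨a, b, rfl⟩) ?_ P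
    rw [inv_eq_of_mul_eq_one_right hmul]
    exact (hring _).2 ⟨a', b', rfl⟩
  · refine le_trans ?_ (FA.CMWeber.weber_ray_class_field h F E hF ψ h2 h3 hring hs hn rfl).1.ge
    rw [mul_assoc]
    exact Nat.mul_le_mul_left 2 (FA.CMRayClass.classNumber_mul_range_le hn)

/-- **Silverberg's bound**: `h φ(n) ≤ k [F K : ℚ]` for a point of exact order `n` over `F`. -/
theorem totient_mul_classNumber_le {k : ℕ}
    (hdk : (k = 1 ∧ d ≠ -1 ∧ d ≠ -3) ∨ FA.CMWeber.Special d k) (hd : Squarefree d) (hd0 : d < 0)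
    {F : IntermediateField ℚ Qb} [FiniteDimensional ℚ F] (E : WeierstrassCurve F) [E.IsElliptic]
    (ψ : F →+* ℂ) {L : PeriodPair} (h2 : L.g₂ = ψ E.c₄ / 12) (h3 : L.g₃ = ψ E.c₆ / 216)
    (hring : IsMultiplierRing L (discK d)) {s : Qb} (hs : s ^ 2 = (d : Qb))
    [NumberField (IntermediateField.adjoin ℚ {s})] {n : ℕ} (hn : n ≠ 0) {P : E.toAffine.Point}
    (hP : addOrderOf P = n) :
    classNumber (IntermediateField.adjoin ℚ {s}) * n.totient ≤
      k * finrank ℚ (F ⊔ IntermediateField.adjoin ℚ {s} : IntermediateField ℚ Qb) := by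
  set F' := IntermediateField.adjoin ℚ {(E.j : Qb)} with hF'
  obtain ⟨E', _, ψ', L', hj, h2', h3', hring'⟩ :
      ∃ (E' : WeierstrassCurve F') (_ : E'.IsElliptic) (ψ' : F' →+* ℂ) (L' : PeriodPair),
        (E'.j : Qb) = (E.j : Qb) ∧ L'.g₂ = ψ' E'.c₄ / 12 ∧ L'.g₃ = ψ' E'.c₆ / 216 ∧
          IsMultiplierRing L' (discK d) := exists_curve E ψ h2 h3 hring
  have hle : F' ≤ F := IntermediateField.adjoin_simple_le_iff.mpr E.j.2
  haveI : FiniteDimensional ℚ F' :=
    IntermediateField.adjoin.finiteDimensional (Algebra.IsIntegral.isIntegral _)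
  haveI := FA.CMWeber.isElliptic_shortModel E
  haveI := FA.CMWeber.isElliptic_shortModel E'
  -- the invariants
  have hcases : (k = 1 ∧ E.c₄ ≠ 0 ∧ E.c₆ ≠ 0) ∨ (k = 2 ∧ E.c₆ = 0) ∨ (k = 3 ∧ E.c₄ = 0) := by
    rcases hdk with ⟨hk, h1, h3d⟩ | h
    · exact Or.inl ⟨hk,
        fun e => g₂_ne_zero hd0 h3d hring (by rw [h2, e, map_zero, zero_div]),
        fun e => g₃_ne_zero hd0 h1 hring (by rw [h3, e, map_zero, zero_div])⟩
    · rcases FA.CMWeber.g_vanish h (FA.CMWeber.stable_rot hring) with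
        ⟨hk, h0, -⟩ | ⟨hk, h0, -⟩
      · exact Or.inr (Or.inl ⟨hk, ψ.injective (by rw [h3] at h0; simpa using h0)⟩)
      · exact Or.inr (Or.inr ⟨hk, ψ.injective (by rw [h2] at h0; simpa using h0)⟩)
  have hk0 : k ≠ 0 := by rcases hcases with ⟨h, -⟩ | ⟨h, -⟩ | ⟨h, -⟩ <;> omega
  obtain ⟨f, hf⟩ := exists_transfer hle E E' hj hcases
  set P₀ := f (upPoint E P) with hP₀
  have hord : addOrderOf P₀ = n := by
    rw [hP₀, ← hP]
    exact (addOrderOf_injective f.toAddMonoidHom f.injective _).trans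
      (addOrderOf_injective (upPoint E) (upPoint_injective E) P)
  have hkill : n • P₀ = 0 := hord ▸ addOrderOf_nsmul_eq_zero P₀
  -- the value lies in `F`
  have hsub : IntermediateField.adjoin ℚ ((F' : Set Qb) ∪ {s} ∪ {xP P₀ ^ k}) ≤
      F ⊔ IntermediateField.adjoin ℚ {s} := by
    refine IntermediateField.adjoin_le_iff.mpr (Set.union_subset (Set.union_subset ?_ ?_) ?_)
    · exact fun z hz => (le_sup_left : F ≤ F ⊔ IntermediateField.adjoin ℚ {s}) (hle hz)
    · exact Set.singleton_subset_iff.mpr ((le_sup_right :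
        IntermediateField.adjoin ℚ {s} ≤ F ⊔ IntermediateField.adjoin ℚ {s})
        (IntermediateField.mem_adjoin_simple_self ℚ s))
    · exact Set.singleton_subset_iff.mpr
        ((le_sup_left : F ≤ F ⊔ IntermediateField.adjoin ℚ {s}) (hf P))
  haveI : FiniteDimensional ℚ (IntermediateField.adjoin ℚ {s}) :=
    IntermediateField.adjoin.finiteDimensional (Algebra.IsIntegral.isIntegral s)
  haveI : FiniteDimensional ℚ (F ⊔ IntermediateField.adjoin ℚ {s} : IntermediateField ℚ Qb) :=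
    IntermediateField.finiteDimensional_sup _ _
  have hF'' : F' = IntermediateField.adjoin ℚ {(E'.j : Qb)} :=
    hF'.trans (congrArg (fun z : Qb => IntermediateField.adjoin ℚ ({z} : Set Qb)) hj.symm)
  have horbit : 2 * classNumber (IntermediateField.adjoin ℚ {s}) *
      ((fun c : ℤ => xP (c • P₀) ^ k) '' {c | IsCoprime c (n : ℤ)}).ncard ≤
      finrank ℚ (IntermediateField.adjoin ℚ ((F' : Set Qb) ∪ {s} ∪ {xP P₀ ^ k})) := by
    rcases hdk with ⟨rfl, h1, h3d⟩ | h
    · exact orbit_generic hd hd0 h1 h3d (shortModel E') (by rw [j_shortModel]; exact hF'') ψ'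
        (by rw [c₄_shortModel]; exact h2') (by rw [c₆_shortModel]; exact h3') hring' hs hn hkill
    · exact orbit_weber h E' hF'' ψ' h2' h3' hring' hs hn hkill
  have hcount := totient_le_values hn hord (fun Q => xP Q ^ k) (w := 2 * k) (by omega)
    fun v S hS => card_fibre_le hk0 v S hS
  have hfin := horbit.trans (IntermediateField.finrank_le_of_le_right hsub)
  calc classNumber (IntermediateField.adjoin ℚ {s}) * n.totient
      ≤ classNumber (IntermediateField.adjoin ℚ {s}) * (2 * k *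
          ((fun c : ℤ => xP (c • P₀) ^ k) '' {c | IsCoprime c (n : ℤ)}).ncard) :=
        Nat.mul_le_mul_left _ hcount
    _ = k * (2 * classNumber (IntermediateField.adjoin ℚ {s}) *
          ((fun c : ℤ => xP (c • P₀) ^ k) '' {c | IsCoprime c (n : ℤ)}).ncard) := by ring
    _ ≤ _ := Nat.mul_le_mul_left k hfin

/-- **Full level**: if all points killed by `n` are over `F` then `h #(𝓞/n)ˣ ≤ [F K : ℚ]`. -/
theorem units_mul_classNumber_le (hd : Squarefree d) (hd0 : d < 0) (hd1 : d ≠ -1) (hd3 : d ≠ -3)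
    {F : IntermediateField ℚ Qb} [FiniteDimensional ℚ F] (E : WeierstrassCurve F) [E.IsElliptic]
    (ψ : F →+* ℂ) {L : PeriodPair} (h2 : L.g₂ = ψ E.c₄ / 12) (h3 : L.g₃ = ψ E.c₆ / 216)
    (hring : IsMultiplierRing L (discK d)) {s : Qb} (hs : s ^ 2 = (d : Qb))
    [NumberField (IntermediateField.adjoin ℚ {s})] {n : ℕ} (hn : n ≠ 0)
    (hfull : ∀ Q : (E.toAffine⁄Qb).Point, n • Q = 0 → ∃ P, upPoint E P = Q) :
    classNumber (IntermediateField.adjoin ℚ {s}) *
        Nat.card (𝕆[s] ⧸ Ideal.span {(n : 𝕆[s])})ˣ ≤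
      finrank ℚ (F ⊔ IntermediateField.adjoin ℚ {s} : IntermediateField ℚ Qb) := by
  set F' := IntermediateField.adjoin ℚ {(E.j : Qb)} with hF'
  obtain ⟨E', _, ψ', L', hj, h2', h3', hring'⟩ :
      ∃ (E' : WeierstrassCurve F') (_ : E'.IsElliptic) (ψ' : F' →+* ℂ) (L' : PeriodPair),
        (E'.j : Qb) = (E.j : Qb) ∧ L'.g₂ = ψ' E'.c₄ / 12 ∧ L'.g₃ = ψ' E'.c₆ / 216 ∧
          IsMultiplierRing L' (discK d) := exists_curve E ψ h2 h3 hring
  have hle : F' ≤ F := IntermediateField.adjoin_simple_le_iff.mpr E.j.2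
  haveI : FiniteDimensional ℚ F' :=
    IntermediateField.adjoin.finiteDimensional (Algebra.IsIntegral.isIntegral _)
  haveI := FA.CMWeber.isElliptic_shortModel E
  haveI := FA.CMWeber.isElliptic_shortModel E'
  obtain ⟨f, hf⟩ := exists_transfer hle E E' hj (k := 1) (Or.inl ⟨rfl,
    fun e => g₂_ne_zero hd0 hd3 hring (by rw [h2, e, map_zero, zero_div]),
    fun e => g₃_ne_zero hd0 hd1 hring (by rw [h3, e, map_zero, zero_div])⟩)
  have hlow := degree_low_generic hd hd0 hd1 hd3 (shortModel E')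
    (by rw [j_shortModel]
        exact hF'.trans (congrArg (fun z : Qb => IntermediateField.adjoin ℚ ({z} : Set Qb))
          hj.symm)) ψ'
    (by rw [c₄_shortModel]; exact h2') (by rw [c₆_shortModel]; exact h3') hring' hs hn
  haveI : FiniteDimensional ℚ (IntermediateField.adjoin ℚ {s}) :=
    IntermediateField.adjoin.finiteDimensional (Algebra.IsIntegral.isIntegral s)
  haveI : FiniteDimensional ℚ (F ⊔ IntermediateField.adjoin ℚ {s} : IntermediateField ℚ Qb) :=
    IntermediateField.finiteDimensional_sup _ _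
  have hsub : IntermediateField.adjoin ℚ ((F' : Set Qb) ∪ {s} ∪
      xP '' {Q : ((shortModel E').toAffine⁄Qb).Point | n • Q = 0}) ≤
      F ⊔ IntermediateField.adjoin ℚ {s} := by
    refine IntermediateField.adjoin_le_iff.mpr (Set.union_subset (Set.union_subset ?_ ?_) ?_)
    · exact fun z hz => (le_sup_left : F ≤ F ⊔ IntermediateField.adjoin ℚ {s}) (hle hz)
    · exact Set.singleton_subset_iff.mpr ((le_sup_right :
        IntermediateField.adjoin ℚ {s} ≤ F ⊔ IntermediateField.adjoin ℚ {s})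
        (IntermediateField.mem_adjoin_simple_self ℚ s))
    · rintro _ ⟨Q, hQ, rfl⟩
      have hQ' : n • Q = 0 := hQ
      obtain ⟨P, hP⟩ := hfull (f.symm Q) (by rw [← map_nsmul, hQ', map_zero])
      have h := hf P
      rw [hP, f.apply_symm_apply, pow_one] at h
      exact (le_sup_left : F ≤ F ⊔ IntermediateField.adjoin ℚ {s}) h
  refine le_trans ?_ (hlow.trans (IntermediateField.finrank_le_of_le_right hsub))
  haveI : Finite (𝕆[s] ⧸ Ideal.span {(n : 𝕆[s])}) :=
    Ideal.finiteQuotientOfFreeOfNeBot _ (span_natCast_ne_bot hn)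
  have hpm : Nat.card (FA.CMRayClass.pmOne (𝕆[s] ⧸ Ideal.span {(n : 𝕆[s])})) ≤ 2 := by
    refine le_of_eq_of_le (Nat.card_coe_set_eq _) ((Set.ncard_le_ncard ?_
      (Set.toFinite {1, -1})).trans ((Set.ncard_insert_le _ _).trans (by simp)))
    rintro z (rfl | rfl) <;> simp
  rw [Subgroup.card_eq_card_quotient_mul_card_subgroup (FA.CMRayClass.pmOne _)]
  calc _ ≤ classNumber (IntermediateField.adjoin ℚ {s}) *
        (Nat.card ((𝕆[s] ⧸ Ideal.span {(n : 𝕆[s])})ˣ ⧸ FA.CMRayClass.pmOne _) * 2) :=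
        Nat.mul_le_mul_left _ (Nat.mul_le_mul_left _ hpm)
    _ = _ := by ring

end FA.CMTorsionBound
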