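import Fermat.Agent.CMWeber.Lattice
import Fermat.Agent.Tau.JInjective
import Fermat.Agent.CMRayClass.Invariant

/-!
# The invariants of a lattice with multiplication by a maximal order

If `g₂ = 0` the lattice is stable under a cube root of unity and if `g₃ = 0` under `i`, so outside
`ℚ(ζ₃)` resp. `ℚ(i)` the invariants do not vanish.
-/

set_option autoImplicit false
set_option linter.unusedSectionVars false

noncomputable section

open FA.CMFields FA.Singular
open FA.FieldClassBound (discK discK_neg)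
open FA.ClassNumberOne (scaled mem_scaled g₂_scaled g₃_scaled)

namespace FA.CMTorsionBound

/-- A number fixing both invariants is a multiplier. -/
theorem stable_of_invariants {L : PeriodPair} {ε : ℂ} (hε : ε ≠ 0)
    (h2 : ε ^ 4 * L.g₂ = L.g₂) (h3 : ε ^ 6 * L.g₃ = L.g₃) : Stable L ε := by
  have hlat : (scaled L hε).lattice = L.lattice := by
    refine (FA.JInj.lattice_eq_iff _ _).2 ⟨?_, ?_⟩
    · rw [g₂_scaled, inv_pow, inv_mul_eq_iff_eq_mul₀ (pow_ne_zero _ hε), h2]
    · rw [g₃_scaled, inv_pow, inv_mul_eq_iff_eq_mul₀ (pow_ne_zero _ hε), h3]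
  intro x hx
  rw [← hlat, mem_scaled hε, mul_comm ε, mul_assoc, mul_inv_cancel₀ hε, mul_one]
  exact hx

/-- The square of the coefficient of `ω` in a multiplier, times the discriminant. -/
theorem multiplier_im_sq {d : ℤ} (hd0 : d < 0) {L : PeriodPair}
    (hring : IsMultiplierRing L (discK d)) {ε : ℂ} (hε : Stable L ε) :
    ∃ y : ℤ, (y : ℝ) ^ 2 * -(discK d : ℝ) = (2 * ε.im) ^ 2 := by
  obtain ⟨x, y, rfl⟩ := (hring ε).1 hε
  refine ⟨y, ?_⟩
  have h0 : (0 : ℝ) ≤ -(discK d : ℝ) := neg_nonneg.2 (Int.cast_nonpos.2 (discK_neg hd0).le)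
  rw [show ((x : ℂ) + (y : ℂ) * omega (discK d)).im = y * (Real.sqrt (-(discK d : ℝ)) / 2) by
    simp [omega_im]]
  rw [show (2 * ((y : ℝ) * (Real.sqrt (-(discK d : ℝ)) / 2))) ^ 2 =
    (y : ℝ) ^ 2 * Real.sqrt (-(discK d : ℝ)) ^ 2 by ring, Real.sq_sqrt h0]

/-- **Outside `ℚ(ζ₃)` the invariant `g₂` does not vanish.** -/
theorem g₂_ne_zero {d : ℤ} (hd0 : d < 0) (hd3 : d ≠ -3) {L : PeriodPair}
    (hring : IsMultiplierRing L (discK d)) : L.g₂ ≠ 0 := by
  intro h0
  set ρ : ℂ := ⟨-(1 / 2), Real.sqrt 3 / 2⟩ with hρ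
  have hs : Real.sqrt 3 ^ 2 = 3 := Real.sq_sqrt (by norm_num)
  have h3 : ρ ^ 3 = 1 := by
    apply Complex.ext
    · simp [hρ, pow_succ]
      linear_combination (3 / 8 : ℝ) * hs
    · simp [hρ, pow_succ]
      linear_combination (-Real.sqrt 3 / 8) * hs
  have hne : ρ ≠ 0 := fun e => by rw [e, zero_pow three_ne_zero] at h3; exact zero_ne_one h3
  obtain ⟨y, hy⟩ := multiplier_im_sq hd0 hring (stable_of_invariants hne (by rw [h0, mul_zero])
    (by rw [show ρ ^ 6 = (ρ ^ 3) ^ 2 by ring, h3, one_pow, one_mul]) : Stable L ρ)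
  rw [show (2 * ρ.im) ^ 2 = 3 by simp [hρ]; linarith] at hy
  have hy' : y ^ 2 * -discK d = 3 := by exact_mod_cast hy
  simp only [discK] at hy'
  split_ifs at hy' with h1
  · have h := Int.le_of_dvd (by norm_num) (Dvd.intro_left _ hy')
    omega
  · rw [show y ^ 2 * -(4 * d) = 4 * (y ^ 2 * -d) by ring] at hy'
    omega

/-- **Outside `ℚ(i)` the invariant `g₃` does not vanish.** -/
theorem g₃_ne_zero {d : ℤ} (hd0 : d < 0) (hd1 : d ≠ -1) {L : PeriodPair}
    (hring : IsMultiplierRing L (discK d)) : L.g₃ ≠ 0 := by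
  intro h0
  obtain ⟨y, hy⟩ := multiplier_im_sq hd0 hring (stable_of_invariants Complex.I_ne_zero
    (by rw [Complex.I_pow_four, one_mul]) (by rw [h0, mul_zero]) : Stable L Complex.I)
  rw [show (2 * Complex.I.im) ^ 2 = 4 by norm_num [Complex.I_im]] at hy
  have hy' : y ^ 2 * -discK d = 4 := by exact_mod_cast hy
  simp only [discK] at hy'
  split_ifs at hy' with h1
  · have h := Int.le_of_dvd (by norm_num) (Dvd.intro_left _ hy')
    have : d = -3 := by omega
    subst this
    norm_num at hy'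
    have h2 := (show (3 : ℤ) ∣ 4 from ⟨y ^ 2, by linarith⟩)
    norm_num at h2
  · rw [show y ^ 2 * -(4 * d) = 4 * (y ^ 2 * -d) by ring] at hy'
    have hyd : y ^ 2 * -d = 1 := by linarith
    have h := Int.le_of_dvd one_pos (Dvd.intro_left _ hyd)
    omega

end FA.CMTorsionBound
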